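import Mathlib

/-!
# S25, layer A, leaf A-FIN (helper7): the Čech `H¹` of a two-chart curve is finitely generated

Abstract linear-algebra core (Mathlib only).  `N` is an `R`-module (the sections `P₀₁` on the
overlap), `X : N ≃ₗ[R] N` is the multiplication by the coordinate `x` (a unit on the overlap),
`Q₀, Q₁ ⊆ N` are the `R`-submodules of sections extending to the two charts.

If `N` is spanned over `R` by the `X ^ n s`, `n ∈ ℤ`, `s` in a FINITE set `S`
(`P₀` finitely generated over `R[x]`, `P₀₁ = P₀[1/x]`), the `X ^ n s`, `n ≥ 0`, lie in `Q₀`, and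
for every `s ∈ S` the `X ^ (-n) s`, `n ≥ e_s`, lie in `Q₁` (`P₀₁ = P₁[1/y]`, `y = 1/x`), then
`N = Q₀ + Q₁ + span_R F` for a finite set `F`, so `H¹ = N / (Q₀ + Q₁)` is a finitely generated
`R`-module: `h7_fin_core`, `h7_fin_quotient`.
-/

set_option autoImplicit false

namespace Fermat.Agent.S25.A.H7

variable {R N : Type*} [CommRing R] [AddCommGroup N] [Module R N]

/-- **A-FIN, core**: `N = Q₀ + Q₁ + span F` with `F` finite. -/
theorem h7_fin_core (X : N ≃ₗ[R] N) (Q0 Q1 : Submodule R N) (S : Finset N)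
    (hgen : Submodule.span R
      ({v : N | ∃ s ∈ S, ∃ n : ℕ, v = (⇑X)^[n] s} ∪
        {v : N | ∃ s ∈ S, ∃ n : ℕ, v = (⇑X.symm)^[n] s}) = ⊤)
    (h0 : ∀ s ∈ S, ∀ n : ℕ, (⇑X)^[n] s ∈ Q0)
    (h1 : ∀ s ∈ S, ∃ e : ℕ, ∀ n : ℕ, e ≤ n → (⇑X.symm)^[n] s ∈ Q1) :
    ∃ F : Finset N, Q0 ⊔ Q1 ⊔ Submodule.span R (F : Set N) = ⊤ := by
  classical
  choose! e he using h1
  refine ⟨S.biUnion fun s => (Finset.range (e s)).image fun n => (⇑X.symm)^[n] s, ?_⟩
  rw [eq_top_iff, ← hgen, Submodule.span_le]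
  rintro v (⟨s, hs, n, rfl⟩ | ⟨s, hs, n, rfl⟩)
  · exact Submodule.mem_sup_left (Submodule.mem_sup_left (h0 s hs n))
  · by_cases hn : e s ≤ n
    · exact Submodule.mem_sup_left (Submodule.mem_sup_right (he s hs n hn))
    · refine Submodule.mem_sup_right (Submodule.subset_span ?_)
      rw [Finset.coe_biUnion]
      refine Set.mem_iUnion₂.2 ⟨s, hs, ?_⟩
      rw [Finset.coe_image]
      exact ⟨n, by simpa using Nat.lt_of_not_le hn, rfl⟩

/-- **A-FIN**: `H¹ = N ⧸ (Q₀ + Q₁)` is a finitely generated `R`-module. -/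
theorem h7_fin_quotient (X : N ≃ₗ[R] N) (Q0 Q1 : Submodule R N) (S : Finset N)
    (hgen : Submodule.span R
      ({v : N | ∃ s ∈ S, ∃ n : ℕ, v = (⇑X)^[n] s} ∪
        {v : N | ∃ s ∈ S, ∃ n : ℕ, v = (⇑X.symm)^[n] s}) = ⊤)
    (h0 : ∀ s ∈ S, ∀ n : ℕ, (⇑X)^[n] s ∈ Q0)
    (h1 : ∀ s ∈ S, ∃ e : ℕ, ∀ n : ℕ, e ≤ n → (⇑X.symm)^[n] s ∈ Q1) :
    Module.Finite R (N ⧸ (Q0 ⊔ Q1)) := by
  classical
  obtain ⟨F, hF⟩ := h7_fin_core X Q0 Q1 S hgen h0 h1
  refine ⟨⟨F.image (Q0 ⊔ Q1).mkQ, ?_⟩⟩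
  rw [Finset.coe_image, ← Submodule.map_span, eq_top_iff]
  rintro z -
  obtain ⟨v, rfl⟩ := (Q0 ⊔ Q1).mkQ_surjective z
  have hv : v ∈ Q0 ⊔ Q1 ⊔ Submodule.span R (F : Set N) := by rw [hF]; exact Submodule.mem_top
  obtain ⟨a, ha, b, hb, rfl⟩ := Submodule.mem_sup.1 hv
  refine ⟨b, hb, ?_⟩
  have ha' : (Q0 ⊔ Q1).mkQ a = 0 := (Submodule.Quotient.mk_eq_zero _).2 ha
  rw [map_add, ha', zero_add]

/-- Multiplication by `x` on a `B`-module, as an `R`-linear automorphism (`x y = 1`). -/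
noncomputable def h7_mulEquiv {B : Type*} [CommRing B] [Algebra R B] [Module B N]
    [IsScalarTower R B N] (x y : B) (hxy : x * y = 1) : N ≃ₗ[R] N :=
  LinearEquiv.ofLinearMap
    ((LinearMap.lsmul B N x).restrictScalars R) ((LinearMap.lsmul B N y).restrictScalars R)
    (by
      ext v
      simp only [LinearMap.coe_comp, LinearMap.coe_restrictScalars, Function.comp_apply,
        LinearMap.lsmul_apply, LinearMap.id_coe, id_eq]
      rw [smul_smul, hxy, one_smul])
    (by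
      ext v
      simp only [LinearMap.coe_comp, LinearMap.coe_restrictScalars, Function.comp_apply,
        LinearMap.lsmul_apply, LinearMap.id_coe, id_eq]
      rw [smul_smul, mul_comm, hxy, one_smul])

theorem h7_mulEquiv_apply {B : Type*} [CommRing B] [Algebra R B] [Module B N]
    [IsScalarTower R B N] (x y : B) (hxy : x * y = 1) (v : N) :
    h7_mulEquiv (R := R) x y hxy v = x • v := rfl

theorem h7_mulEquiv_symm_apply {B : Type*} [CommRing B] [Algebra R B] [Module B N]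
    [IsScalarTower R B N] (x y : B) (hxy : x * y = 1) (v : N) :
    (h7_mulEquiv (R := R) x y hxy).symm v = y • v := rfl

theorem h7_mulEquiv_iterate {B : Type*} [CommRing B] [Algebra R B] [Module B N]
    [IsScalarTower R B N] (x y : B) (hxy : x * y = 1) (n : ℕ) (v : N) :
    (⇑(h7_mulEquiv (R := R) x y hxy))^[n] v = x ^ n • v := by
  induction n generalizing v with
  | zero => simp
  | succ n ih =>
    rw [Function.iterate_succ_apply, ih, h7_mulEquiv_apply, smul_smul, ← pow_succ]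

theorem h7_mulEquiv_symm_iterate {B : Type*} [CommRing B] [Algebra R B] [Module B N]
    [IsScalarTower R B N] (x y : B) (hxy : x * y = 1) (n : ℕ) (v : N) :
    (⇑(h7_mulEquiv (R := R) x y hxy).symm)^[n] v = y ^ n • v := by
  induction n generalizing v with
  | zero => simp
  | succ n ih =>
    rw [Function.iterate_succ_apply, ih, h7_mulEquiv_symm_apply, smul_smul, ← pow_succ]

/-- **A-FIN, two-chart form.**  `N` a module over `B` (the ring of the overlap, an
`R`-algebra), `x y = 1` in `B`, `Q₀, Q₁ ⊆ N` `R`-submodules (sections on the two charts) with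
`x Q₀ ⊆ Q₀`, `y Q₁ ⊆ Q₁`, `N = ⋃ x⁻ⁿ Q₀ = ⋃ y⁻ⁿ Q₁`, and `Q₀` spanned over `R` by the `xⁿ s`,
`s` in a finite set `S ⊆ Q₀`.  Then `H¹ = N ⧸ (Q₀ + Q₁)` is a finitely generated `R`-module. -/
theorem h7_fin_two_chart {B : Type*} [CommRing B] [Algebra R B] [Module B N]
    [IsScalarTower R B N] (x y : B) (hxy : x * y = 1) (Q0 Q1 : Submodule R N) (S : Finset N)
    (hS0 : ∀ s ∈ S, s ∈ Q0)
    (hS : Q0 ≤ Submodule.span R {v : N | ∃ s ∈ S, ∃ n : ℕ, v = x ^ n • s})
    (hx0 : ∀ v ∈ Q0, x • v ∈ Q0) (hloc0 : ∀ v : N, ∃ n : ℕ, x ^ n • v ∈ Q0)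
    (hy1 : ∀ v ∈ Q1, y • v ∈ Q1) (hloc1 : ∀ v : N, ∃ n : ℕ, y ^ n • v ∈ Q1) :
    Module.Finite R (N ⧸ (Q0 ⊔ Q1)) := by
  classical
  have hyx : y * x = 1 := by rw [mul_comm]; exact hxy
  have hpow0 : ∀ (n : ℕ) (v : N), v ∈ Q0 → x ^ n • v ∈ Q0 := by
    intro n
    induction n with
    | zero => intro v hv; simpa using hv
    | succ n ih =>
      intro v hv
      rw [pow_succ', mul_smul]
      exact hx0 _ (ih v hv)
  have hpow1 : ∀ (n : ℕ) (v : N), v ∈ Q1 → y ^ n • v ∈ Q1 := by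
    intro n
    induction n with
    | zero => intro v hv; simpa using hv
    | succ n ih =>
      intro v hv
      rw [pow_succ', mul_smul]
      exact hy1 _ (ih v hv)
  have hcancel : ∀ (n : ℕ) (v : N), y ^ n • x ^ n • v = v := by
    intro n v
    rw [smul_smul, ← mul_pow, hyx, one_pow, one_smul]
  -- the generating set of `h7_fin_core`
  set G : Set N := {v : N | ∃ s ∈ S, ∃ n : ℕ, v = (⇑(h7_mulEquiv (R := R) x y hxy))^[n] s} ∪
      {v : N | ∃ s ∈ S, ∃ n : ℕ, v = (⇑(h7_mulEquiv (R := R) x y hxy).symm)^[n] s} with hG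
  have hmix : ∀ (s : N), s ∈ S → ∀ n m : ℕ, y ^ n • x ^ m • s ∈ Submodule.span R G := by
    intro s hs n m
    rcases le_total n m with h | h
    · obtain ⟨d, rfl⟩ := Nat.exists_eq_add_of_le h
      have : y ^ n • x ^ (n + d) • s = x ^ d • s := by
        rw [pow_add, mul_comm (x ^ n), mul_smul, smul_comm (x ^ d) (x ^ n) s, hcancel]
      rw [this]
      refine Submodule.subset_span (Or.inl ⟨s, hs, d, ?_⟩)
      rw [h7_mulEquiv_iterate]
    · obtain ⟨d, rfl⟩ := Nat.exists_eq_add_of_le h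
      have : y ^ (m + d) • x ^ m • s = y ^ d • s := by
        rw [pow_add, mul_comm (y ^ m), mul_smul, hcancel]
      rw [this]
      refine Submodule.subset_span (Or.inr ⟨s, hs, d, ?_⟩)
      rw [h7_mulEquiv_symm_iterate]
  refine h7_fin_quotient (h7_mulEquiv (R := R) x y hxy) Q0 Q1 S ?_ ?_ ?_
  · rw [eq_top_iff]
    rintro v -
    obtain ⟨n, hn⟩ := hloc0 v
    have hv : v = y ^ n • (x ^ n • v) := (hcancel n v).symm
    rw [hv]
    have h2 : x ^ n • v ∈ Submodule.span R {v : N | ∃ s ∈ S, ∃ n : ℕ, v = x ^ n • s} := hS hn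
    -- `y ^ n •` maps the span into `span G`
    have key : ∀ w ∈ Submodule.span R {v : N | ∃ s ∈ S, ∃ n : ℕ, v = x ^ n • s},
        y ^ n • w ∈ Submodule.span R G := by
      intro w hw
      induction hw using Submodule.span_induction with
      | mem w hw =>
        obtain ⟨s, hs, m, rfl⟩ := hw
        exact hmix s hs n m
      | zero => rw [smul_zero]; exact Submodule.zero_mem _
      | add a b _ _ ha hb => rw [smul_add]; exact Submodule.add_mem _ ha hb
      | smul r a _ ha => rw [smul_comm]; exact Submodule.smul_mem _ r ha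
    exact key _ h2
  · intro s hs n
    rw [h7_mulEquiv_iterate]
    exact hpow0 n s (hS0 s hs)
  · intro s hs
    obtain ⟨e, he⟩ := hloc1 s
    refine ⟨e, fun n hn => ?_⟩
    rw [h7_mulEquiv_symm_iterate]
    obtain ⟨d, rfl⟩ := Nat.exists_eq_add_of_le hn
    rw [pow_add, mul_comm, mul_smul]
    exact hpow1 d _ he

end Fermat.Agent.S25.A.H7
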